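import Fermat.Agent.S14.Bridge.Defs

/-!
# S14 / Bridge / Cyclo: the mod-`p` cyclotomic character on `Gal(ℚ̄/ℚ)`.
-/

set_option autoImplicit false

namespace Fermat.Agent.S14.Bridge

open ExtCitation

local notation "Ω" => AlgebraicClosure ℚ
local notation "Γ" => (AlgebraicClosure ℚ ≃ₐ[ℚ] AlgebraicClosure ℚ)

variable (p : ℕ) [Fact p.Prime]

/-- There is a primitive `p`-th root of unity in `ℚ̄`. -/
theorem exists_primitiveRoot : ∃ ζ₀ : Ω, IsPrimitiveRoot ζ₀ p := by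
  have : NeZero p := ⟨(Fact.out : p.Prime).ne_zero⟩
  have : NeZero (p : Ω) := ⟨Nat.cast_ne_zero.mpr (NeZero.ne p)⟩
  exact HasEnoughRootsOfUnity.exists_primitiveRoot Ω p

/-- The defining property of the cyclotomic exponent. -/
theorem cycloExp_spec (σ : Γ) (ζ : Ω) (hζ : ζ ^ p = 1) : σ ζ = ζ ^ cycloExp p σ := by
  have : NeZero p := ⟨(Fact.out : p.Prime).ne_zero⟩
  have hu : IsUnit ζ := IsUnit.of_pow_eq_one hζ (NeZero.ne p)
  obtain ⟨u, rfl⟩ := hu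
  have hmem : u ∈ rootsOfUnity p Ω := by
    rw [mem_rootsOfUnity]
    ext
    simpa using hζ
  exact modularCyclotomicCharacter.spec Ω (card_rootsOfUnity_eq_self p) (σ : Ω ≃+* Ω) hmem

/-- `σ ζ₀ = ζ₀ ^ k` pins down the cyclotomic character. -/
theorem natCast_eq_cycloChar {ζ₀ : Ω} (hζ₀ : IsPrimitiveRoot ζ₀ p) (σ : Γ) (k : ℕ)
    (h : σ ζ₀ = ζ₀ ^ k) : (k : ZMod p) = (cycloChar p σ : ZMod p) := by
  have hp0 : p ≠ 0 := (Fact.out : p.Prime).ne_zero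
  rw [coe_cycloChar]
  have h2 := cycloExp_spec p σ ζ₀ hζ₀.pow_eq_one
  rw [h] at h2
  rw [ZMod.natCast_eq_natCast_iff]
  have h3 := (hζ₀.isOfFinOrder hp0).pow_eq_pow_iff_modEq.mp h2
  rwa [← hζ₀.eq_orderOf] at h3

theorem cycloChar_eq_one_iff {ζ₀ : Ω} (hζ₀ : IsPrimitiveRoot ζ₀ p) (σ : Γ) :
    cycloChar p σ = 1 ↔ σ ζ₀ = ζ₀ := by
  have : Fact (1 < p) := ⟨(Fact.out : p.Prime).one_lt⟩
  constructor
  · intro h
    have h2 := cycloExp_spec p σ ζ₀ hζ₀.pow_eq_one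
    rw [← val_cycloChar, h, Units.val_one, ZMod.val_one, pow_one] at h2
    exact h2
  · intro h
    have h2 := natCast_eq_cycloChar p hζ₀ σ 1 (by rw [pow_one]; exact h)
    apply Units.ext
    rw [← h2, Nat.cast_one, Units.val_one]

/-- For `p ≥ 3` the cyclotomic character is nontrivial (e.g. there is `σ₀` with
`σ₀ ζ₀ = ζ₀⁻¹`, because `ζ₀` and `ζ₀⁻¹` have the same minimal polynomial over `ℚ`). -/
theorem exists_cycloChar_ne_one (h3 : 3 ≤ p) : ∃ σ₀ : Γ, cycloChar p σ₀ ≠ 1 := by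
  obtain ⟨ζ₀, hζ₀⟩ := exists_primitiveRoot p
  have hp : 0 < p := (Fact.out : p.Prime).pos
  have hinv : IsPrimitiveRoot ζ₀⁻¹ p := hζ₀.inv
  have h1 : Polynomial.cyclotomic p ℚ = minpoly ℚ ζ₀ :=
    Polynomial.cyclotomic_eq_minpoly_rat hζ₀ hp
  have h2 : Polynomial.cyclotomic p ℚ = minpoly ℚ ζ₀⁻¹ :=
    Polynomial.cyclotomic_eq_minpoly_rat hinv hp
  have : Algebra.IsAlgebraic ℚ Ω := AlgebraicClosure.isAlgebraic ℚ
  have : IsAlgClosure ℚ Ω := ⟨inferInstance, inferInstance⟩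
  have : Normal ℚ Ω := IsAlgClosure.normal ℚ Ω
  have halg : IsAlgebraic ℚ ζ₀⁻¹ := Algebra.IsAlgebraic.isAlgebraic _
  obtain ⟨σ₀, hσ₀⟩ := minpoly.exists_algEquiv_of_root (K := ℚ) (L := Ω) (x := ζ₀) (y := ζ₀⁻¹)
    halg (by rw [← h2, h1]; exact minpoly.aeval ℚ ζ₀)
  refine ⟨σ₀, fun h => ?_⟩
  rw [cycloChar_eq_one_iff p hζ₀] at h
  rw [hσ₀] at h
  have hne : ζ₀ ≠ 0 := hζ₀.ne_zero hp.ne'
  have h4 : ζ₀ ^ 2 = 1 := by
    rw [pow_two]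
    nth_rewrite 1 [← h]
    exact inv_mul_cancel₀ hne
  have h5 : p ∣ 2 := hζ₀.dvd_of_pow_eq_one 2 h4
  have h6 : p ≤ 2 := Nat.le_of_dvd (by norm_num) h5
  omega

end Fermat.Agent.S14.Bridge
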