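import Mathlib
import Fermat.Agent.S14.Defs
import Fermat.Prelude.Def_ExtCitation_AdmissibleExtension_v2
import Fermat.Prelude.Def_ExtCitation_KummerBridge

/-!
# S14, theory "Bridge" (owner helper17): definitions (FROZEN)

`Fermat.Agent.S14.ArithmeticCore p` (file `Fermat/Agent/S14/Defs.lean`) is the purely
number-theoretic statement to which the bridge reduces `ExtCitation.ExtVanishingCts p`: there is
no Galois extension `L/ℚ` containing `K = ℚ(ζ_p)` with `[L : K] = p`, such that `Gal(L/ℚ)` acts on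
`Gal(L/K)` by conjugation through the inverse of the mod-`p` cyclotomic character, `L/K` is
unramified outside `p`, and the primes above `p` split completely in `L/K`
(`Fermat.Agent.S14.TwistedExt`).

`ConcreteTwisted p ζ₀ L₀` is the same data expressed inside `AlgebraicClosure ℚ`, in the language
of the frozen statement (valuation subrings of `AlgebraicClosure ℚ`).
-/

set_option autoImplicit false

namespace Fermat.Agent.S14.Bridge

open NumberField

/-- The same data inside `AlgebraicClosure ℚ`: `ζ₀` a primitive `p`-th root of unity,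
`L₀` a finite normal extension of `ℚ` containing `ζ₀`; the Galois group of `L₀` over `ℚ(ζ₀)` is
generated by (the restriction of) `τ₀`, of order exactly `p`. -/
structure ConcreteTwisted (p : ℕ) (ζ₀ : AlgebraicClosure ℚ)
    (L₀ : IntermediateField ℚ (AlgebraicClosure ℚ)) : Prop where
  prim : IsPrimitiveRoot ζ₀ p
  mem : ζ₀ ∈ L₀
  finite : FiniteDimensional ℚ L₀
  normal : Normal ℚ L₀
  gen : ∃ τ₀ : AlgebraicClosure ℚ ≃ₐ[ℚ] AlgebraicClosure ℚ, τ₀ ζ₀ = ζ₀ ∧ (∃ x ∈ L₀, τ₀ x ≠ x) ∧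
      (∀ x ∈ L₀, (τ₀ ^ p) x = x) ∧
      ∀ τ : AlgebraicClosure ℚ ≃ₐ[ℚ] AlgebraicClosure ℚ, τ ζ₀ = ζ₀ →
        ∃ j : ℕ, ∀ x ∈ L₀, τ x = (τ₀ ^ j) x
  twist : ∀ σ τ : AlgebraicClosure ℚ ≃ₐ[ℚ] AlgebraicClosure ℚ, τ ζ₀ = ζ₀ →
      ∀ k : ℕ, σ ζ₀ = ζ₀ ^ k → ∀ x ∈ L₀, σ ((τ ^ k) (σ⁻¹ x)) = τ x
  unram : ∀ ℓ : ℕ, ℓ.Prime → ℓ ≠ p → ∀ A : ValuationSubring (AlgebraicClosure ℚ),
      A.LiesOverPrime ℓ → ∀ σ ∈ A.inertiaSubgroupIn ℚ, ∀ x ∈ L₀, σ x = x
  split : ∀ A : ValuationSubring (AlgebraicClosure ℚ), A.LiesOverPrime p →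
      ∀ σ ∈ A.decompositionSubgroup ℚ, σ ζ₀ = ζ₀ → ∀ x ∈ L₀, σ x = x

/-- Abstract form of the hypotheses on the extension `0 → C → V → V/C → 0`: a group `G` acts on
the `ZMod p`-module `V` (of cardinality `p ^ 2`), trivially on the submodule `C` (of cardinality
`p`), and through the character `χ` on `V/C`. -/
structure ExtData {p : ℕ} [Fact p.Prime] {G : Type*} [Group G] (χ : G →* (ZMod p)ˣ)
    {V : Type*} [AddCommGroup V] [Module (ZMod p) V] [DistribMulAction G V]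
    (C : Submodule (ZMod p) V) : Prop where
  fixed_sub : ∀ σ : G, ∀ x ∈ C, σ • x = x
  quot : ∀ σ : G, ∀ x : V, σ • x - ((χ σ : (ZMod p)ˣ) : ZMod p) • x ∈ C
  card_sub : Nat.card C = p
  card_total : Nat.card V = p ^ 2

/-- `(K, L, φ)` is an abstract model of the pair of fields `ℚ(ζ₀) ⊆ L₀` inside `ℚ̄`:
`φ` embeds `L` into `ℚ̄` with image `L₀`, and `K` corresponds to a subfield of `ℚ(ζ₀)`
containing `ζ₀`. -/
structure IsModel (K L : Type) [Field K] [Field L] [Algebra K L]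
    (φ : L →+* AlgebraicClosure ℚ) (ζ₀ : AlgebraicClosure ℚ)
    (L₀ : IntermediateField ℚ (AlgebraicClosure ℚ)) : Prop where
  range : ∀ y : AlgebraicClosure ℚ, y ∈ L₀ ↔ ∃ x : L, φ x = y
  base_le : ∀ z : K, φ (algebraMap K L z) ∈ IntermediateField.adjoin ℚ {ζ₀}
  base_mem : ∃ z : K, φ (algebraMap K L z) = ζ₀

end Fermat.Agent.S14.Bridge
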