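import Fermat.Agent.S14.Bridge.Defs

/-!
# S14 / Bridge / Galois: the fixed field of an open normal subgroup of `Gal(ℚ̄/ℚ)`.
-/

set_option autoImplicit false

namespace Fermat.Agent.S14.Bridge

local notation "Ω" => AlgebraicClosure ℚ
local notation "Γ" => (AlgebraicClosure ℚ ≃ₐ[ℚ] AlgebraicClosure ℚ)

/-- `ℚ̄/ℚ` is Galois. -/
theorem isGalois_qbar : IsGalois ℚ Ω := by
  have : Algebra.IsAlgebraic ℚ (AlgebraicClosure ℚ) := AlgebraicClosure.isAlgebraic ℚ
  have : IsAlgClosure ℚ (AlgebraicClosure ℚ) := ⟨inferInstance, inferInstance⟩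
  exact isGalois_iff.mpr ⟨inferInstance, IsAlgClosure.normal ℚ (AlgebraicClosure ℚ)⟩

/-- The fixed field of an open normal subgroup `H` of `Gal(ℚ̄/ℚ)` (Krull topology) is a finite
normal extension of `ℚ`, and an automorphism fixing it pointwise lies in `H`. -/
theorem fixedField_of_open_normal (H : Subgroup Γ) [H.Normal] (hH : IsOpen (H : Set Γ)) :
    FiniteDimensional ℚ (IntermediateField.fixedField H) ∧
    Normal ℚ (IntermediateField.fixedField H) ∧
    ∀ σ : Γ, (∀ x ∈ IntermediateField.fixedField H, σ x = x) → σ ∈ H := by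
  have hgal : IsGalois ℚ Ω := isGalois_qbar
  have hfix : (IntermediateField.fixedField H).fixingSubgroup = H :=
    InfiniteGalois.fixingSubgroup_fixedField
      (⟨H, Subgroup.isClosed_of_isOpen H hH⟩ : ClosedSubgroup Γ)
  refine ⟨?_, ?_, ?_⟩
  · refine (InfiniteGalois.isOpen_iff_finite (IntermediateField.fixedField H)).mp ?_
    rw [hfix]
    exact hH
  · have hnormal : (IntermediateField.fixedField H).fixingSubgroup.Normal := by
      rw [hfix]; infer_instance
    have hgal' : IsGalois ℚ (IntermediateField.fixedField H) :=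
      (InfiniteGalois.normal_iff_isGalois (IntermediateField.fixedField H)).mp hnormal
    exact IsGalois.to_normal
  · intro σ hσ
    rw [← hfix]
    exact (IntermediateField.mem_fixingSubgroup_iff (IntermediateField.fixedField H) σ).mpr
      fun x hx => hσ x hx

/-- Every automorphism of `ℚ̄` maps a normal intermediate field into itself. -/
theorem map_mem_of_normal (E : IntermediateField ℚ Ω) [Normal ℚ E] (σ : Γ) {x : Ω} (hx : x ∈ E) :
    σ x ∈ E := by
  have h : ((σ.restrictNormal E) ⟨x, hx⟩ : Ω) = σ x :=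
    AlgEquiv.restrictNormal_commutes σ E ⟨x, hx⟩
  rw [← h]
  exact (σ.restrictNormal E ⟨x, hx⟩).2

end Fermat.Agent.S14.Bridge
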