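import Fermat.Agent.S14.Bridge.ValLift

/-!
# S14 / Bridge / Lift: lifting decomposition and inertia from a finite level `E` to `ℚ̄`.
-/

set_option autoImplicit false

namespace Fermat.Agent.S14.Bridge

local notation "Ω" => AlgebraicClosure ℚ
local notation "Γ" => (AlgebraicClosure ℚ ≃ₐ[ℚ] AlgebraicClosure ℚ)

attribute [local instance] Fermat.Agent.S54.isGalois_qbar Fermat.Agent.S54.isAlgebraic_qbar

/-- An automorphism of `ℚ̄` agreeing on the normal field `E` with `σ` differs from `σ` by an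
element of `Gal(ℚ̄/E)`. -/
private theorem mul_inv_mem_fixingSubgroup (E : IntermediateField ℚ Ω) [Normal ℚ E] (σ σ' : Γ)
    (h : ∀ x : E, σ' (x : Ω) = σ (x : Ω)) : σ' * σ⁻¹ ∈ E.fixingSubgroup := by
  rw [IntermediateField.mem_fixingSubgroup_iff]
  intro y hy
  -- `σ⁻¹ y ∈ E`
  have h1 := AlgEquiv.restrictNormal_commutes σ⁻¹ E ⟨y, hy⟩
  have h2 : σ⁻¹ y = ((σ⁻¹.restrictNormal E ⟨y, hy⟩ : E) : Ω) := h1.symm
  show (σ' * σ⁻¹) y = y
  rw [AlgEquiv.mul_apply, h2, h, ← h2]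
  simp

/-- If `σ` preserves the prime of (the integers of) the finite normal field `E` cut out by `A`,
then `σ` agrees on `E` with an element of the decomposition group of `A`. -/
theorem exists_mul_mem_decomposition (E : IntermediateField ℚ Ω) [Normal ℚ E]
    [FiniteDimensional ℚ E] (ℓ : ℕ)
    (hℓ : ℓ.Prime) (A : ValuationSubring Ω) (hA : A.LiesOverPrime ℓ) (σ : Γ)
    (hσ : ∀ x ∈ E, IsIntegral ℤ x → (σ x ∈ A.nonunits ↔ x ∈ A.nonunits)) :
    ∃ ρ : Γ, ρ ∈ E.fixingSubgroup ∧ ρ * σ ∈ A.decompositionSubgroup ℚ := by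
  have hτ : ∀ x : E, ((σ.restrictNormal E x : E) : Ω) = σ (x : Ω) := fun x =>
    AlgEquiv.restrictNormal_commutes σ E x
  obtain ⟨σ', hσ'D, hσ'⟩ := ValLift.lift_decomposition E ℓ hℓ A hA (σ.restrictNormal E) (by
    intro x hx
    have hxi : IsIntegral ℤ (x : Ω) := hx.map (IsScalarTower.toAlgHom ℤ E Ω)
    rw [hτ]
    exact (hσ (x : Ω) x.2 hxi).symm)
  refine ⟨σ' * σ⁻¹, mul_inv_mem_fixingSubgroup E σ σ' (fun x => by rw [hσ', hτ]), ?_⟩
  rw [inv_mul_cancel_right]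
  exact hσ'D

/-- If `σ` acts trivially on the integers of the finite normal field `E` modulo the prime cut out
by `A`, then `σ` agrees on `E` with an element of the inertia group of `A`. -/
theorem exists_mul_mem_inertia (E : IntermediateField ℚ Ω) [Normal ℚ E]
    [FiniteDimensional ℚ E] (ℓ : ℕ)
    (hℓ : ℓ.Prime) (A : ValuationSubring Ω) (hA : A.LiesOverPrime ℓ) (σ : Γ)
    (hσ : ∀ x ∈ E, IsIntegral ℤ x → σ x - x ∈ A.nonunits) :
    ∃ ρ : Γ, ρ ∈ E.fixingSubgroup ∧ ρ * σ ∈ A.inertiaSubgroupIn ℚ := by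
  have hτ : ∀ x : E, ((σ.restrictNormal E x : E) : Ω) = σ (x : Ω) := fun x =>
    AlgEquiv.restrictNormal_commutes σ E x
  obtain ⟨σ', hσ'I, hσ'⟩ := ValLift.lift_inertia E ℓ hℓ A hA (σ.restrictNormal E) (by
    intro x hx
    have hxi : IsIntegral ℤ (x : Ω) := hx.map (IsScalarTower.toAlgHom ℤ E Ω)
    rw [hτ]
    exact hσ (x : Ω) x.2 hxi)
  refine ⟨σ' * σ⁻¹, mul_inv_mem_fixingSubgroup E σ σ' (fun x => by rw [hσ', hτ]), ?_⟩
  rw [inv_mul_cancel_right]
  exact hσ'I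

end Fermat.Agent.S14.Bridge
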