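import Fermat.Agent.S14.Bridge.Defs

/-!
# S14 / Bridge / LinAlgA: elementary consequences of `ExtData` (part A).
-/

set_option autoImplicit false
-- the statements keep the section instance `SMulCommClass G (ZMod p) V` even when unused
set_option linter.unusedSectionVars false

namespace Fermat.Agent.S14.Bridge

variable {p : ℕ} [Fact p.Prime] {G : Type*} [Group G] {χ : G →* (ZMod p)ˣ}
  {V : Type*} [AddCommGroup V] [Module (ZMod p) V] [DistribMulAction G V]
  [SMulCommClass G (ZMod p) V] {C : Submodule (ZMod p) V}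

/-- If `χ σ ≠ 1` then `1 - χ σ` is a nonzero element of the field `ZMod p`. -/
private theorem one_sub_chi_ne_zero {σ : G} (hσ : χ σ ≠ 1) :
    (1 : ZMod p) - ((χ σ : (ZMod p)ˣ) : ZMod p) ≠ 0 := by
  intro h0
  apply hσ
  apply Units.ext
  rw [Units.val_one]
  exact (sub_eq_zero.mp h0).symm

/-- An element acting trivially on `V` has trivial character (otherwise `V = C`). -/
theorem ExtData.chi_eq_one_of_trivial (h : ExtData χ C) (σ : G) (hσ : ∀ v : V, σ • v = v) :
    χ σ = 1 := by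
  by_contra hne
  have hp : p.Prime := Fact.out
  have hne' : (1 : ZMod p) - ((χ σ : (ZMod p)ˣ) : ZMod p) ≠ 0 := one_sub_chi_ne_zero hne
  have htop : ∀ x : V, x ∈ C := by
    intro x
    have hx := h.quot σ x
    rw [hσ x] at hx
    have hmem : ((1 : ZMod p) - ((χ σ : (ZMod p)ˣ) : ZMod p)) • x ∈ C := by
      rw [sub_smul, one_smul]
      exact hx
    exact (Submodule.smul_mem_iff C hne').mp hmem
  have hcard : Nat.card C = Nat.card V :=
    Nat.card_congr ⟨fun x => x.1, fun x => ⟨x, htop x⟩, fun _ => rfl, fun _ => rfl⟩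
  rw [h.card_sub, h.card_total] at hcard
  have h1 : 1 < p := hp.one_lt
  nlinarith

/-- Elements of the kernel of `χ` move every vector by an element of `C`. -/
theorem ExtData.smul_sub_mem (h : ExtData χ C) (τ : G) (hτ : χ τ = 1) (x : V) :
    τ • x - x ∈ C := by
  have hx := h.quot τ x
  rw [hτ, Units.val_one, one_smul] at hx
  exact hx

/-- If `σ` has trivial character and stabilises a complement of `C`, it acts trivially. -/
theorem ExtData.trivial_of_stable_compl (h : ExtData χ C) (σ : G) (hσ : χ σ = 1)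
    (C' : Submodule (ZMod p) V) (hst : ∀ x ∈ C', σ • x ∈ C') (hc : IsCompl C C') :
    ∀ v : V, σ • v = v := by
  intro v
  have hv : v ∈ C ⊔ C' := by
    rw [hc.sup_eq_top]
    exact Submodule.mem_top
  obtain ⟨c, hcC, c', hc'C', rfl⟩ := Submodule.mem_sup.mp hv
  have h1 : σ • c' - c' ∈ C := h.smul_sub_mem σ hσ c'
  have h2 : σ • c' - c' ∈ C' := C'.sub_mem (hst c' hc'C') hc'C'
  have h3 : σ • c' - c' ∈ C ⊓ C' := Submodule.mem_inf.mpr ⟨h1, h2⟩
  rw [hc.inf_eq_bot, Submodule.mem_bot] at h3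
  rw [smul_add, h.fixed_sub σ c hcC, sub_eq_zero.mp h3]

/-- If the kernel of `χ` acts trivially and `χ` is nontrivial, the extension splits
(`C' = range (σ₀ - 1)` is a `G`-stable complement of `C`). -/
theorem ExtData.split_of_trivial (h : ExtData χ C)
    (hker : ∀ τ : G, χ τ = 1 → ∀ v : V, τ • v = v) (σ₀ : G) (hσ₀ : χ σ₀ ≠ 1) :
    ∃ C' : Submodule (ZMod p) V, (∀ σ : G, ∀ x ∈ C', σ • x ∈ C') ∧ IsCompl C C' := by
  have hne : (1 : ZMod p) - ((χ σ₀ : (ZMod p)ˣ) : ZMod p) ≠ 0 := one_sub_chi_ne_zero hσ₀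
  have hquot : ∀ x : V, σ₀ • x - ((χ σ₀ : (ZMod p)ˣ) : ZMod p) • x ∈ C := h.quot σ₀
  generalize ((χ σ₀ : (ZMod p)ˣ) : ZMod p) = a at hne hquot
  -- the `ZMod p`-linear map `N = σ₀ - 1`
  let N : V →ₗ[ZMod p] V := DistribSMul.toLinearMap (ZMod p) V σ₀ - LinearMap.id
  have hN : ∀ y : V, N y = σ₀ • y - y := fun _ => rfl
  -- `σ₀` commutes with the action of every `σ`, because commutators lie in the kernel of `χ`
  have hcomm : ∀ (σ : G) (y : V), σ • σ₀ • y = σ₀ • σ • y := by
    intro σ y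
    have hτ : χ ((σ₀ * σ)⁻¹ * (σ * σ₀)) = 1 := by
      rw [map_mul, map_inv, map_mul, map_mul, mul_comm (χ σ₀) (χ σ), inv_mul_cancel]
    have hy := hker _ hτ y
    rw [mul_smul, inv_smul_eq_iff, mul_smul, mul_smul] at hy
    exact hy
  refine ⟨LinearMap.range N, ?_, ?_, ?_⟩
  · -- stability under `G`
    rintro σ x ⟨y, rfl⟩
    refine ⟨σ • y, ?_⟩
    rw [hN, hN, smul_sub, hcomm σ y]
  · -- `C ⊓ C' = ⊥`
    rw [Submodule.disjoint_def]
    rintro x hxC ⟨y, rfl⟩
    rw [hN] at hxC ⊢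
    have e1 := h.fixed_sub σ₀ _ (hquot y)
    have e2 := h.fixed_sub σ₀ _ hxC
    rw [smul_sub, smul_comm σ₀ a y] at e1
    rw [smul_sub] at e2
    have key : ((1 : ZMod p) - a) • (σ₀ • y - y) = 0 := by
      have e3 : ((1 : ZMod p) - a) • (σ₀ • y - y)
          = (σ₀ • σ₀ • y - a • σ₀ • y - (σ₀ • y - a • y))
            - (σ₀ • σ₀ • y - σ₀ • y - (σ₀ • y - y)) := by
        rw [sub_smul, one_smul, smul_sub]
        abel
      rw [e3, e1, e2, sub_self, sub_self, sub_zero]
    exact (smul_eq_zero.mp key).resolve_left hne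
  · -- `C ⊔ C' = ⊤`
    rw [codisjoint_iff, eq_top_iff]
    intro v _
    have e : v = ((1 : ZMod p) - a)⁻¹ • (σ₀ • v - a • v)
        + (-((1 : ZMod p) - a)⁻¹) • N v := by
      have e' : (σ₀ • v - a • v) - (σ₀ • v - v) = ((1 : ZMod p) - a) • v := by
        rw [sub_smul, one_smul]
        abel
      rw [hN, neg_smul, ← sub_eq_add_neg, ← smul_sub, e', smul_smul, inv_mul_cancel₀ hne,
        one_smul]
    rw [e]
    exact Submodule.add_mem_sup (C.smul_mem _ (hquot v))
      (Submodule.smul_mem _ _ (LinearMap.mem_range_self N v))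

end Fermat.Agent.S14.Bridge
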