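import Fermat.Agent.S14.Bridge.Defs

/-!
# S14 / Bridge / LinAlgB: elementary consequences of `ExtData` (part B):
the image of `ker χ` in `Aut V` is cyclic of order dividing `p`, and conjugation acts on it
through `χ⁻¹`.
-/

set_option autoImplicit false

namespace Fermat.Agent.S14.Bridge

variable {p : ℕ} [Fact p.Prime] {G : Type*} [Group G] {χ : G →* (ZMod p)ˣ}
  {V : Type*} [AddCommGroup V] [Module (ZMod p) V] [DistribMulAction G V]
  [SMulCommClass G (ZMod p) V] {C : Submodule (ZMod p) V}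

omit [SMulCommClass G (ZMod p) V] in
/-- Elements of the kernel of `χ` move every vector by an element of `C`. -/
private theorem linAlgB_sub_mem (h : ExtData χ C) (τ : G) (hτ : χ τ = 1) (w : V) :
    τ • w - w ∈ C := by
  have h1 := h.quot τ w
  rw [hτ, Units.val_one, one_smul] at h1
  exact h1

/-- Powers of an element `τ` of the kernel of `χ`: `τ ^ k • w = w + k • (τ • w - w)`. -/
private theorem linAlgB_pow_smul (h : ExtData χ C) (τ : G) (hτ : χ τ = 1) (w : V) (k : ℕ) :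
    (τ ^ k) • w = w + (k : ZMod p) • (τ • w - w) := by
  induction k with
  | zero => rw [pow_zero, one_smul, Nat.cast_zero, zero_smul, add_zero]
  | succ k ih =>
    have hd : τ • (τ • w - w) = τ • w - w := h.fixed_sub τ _ (linAlgB_sub_mem h τ hτ w)
    rw [pow_succ', mul_smul, ih, smul_add, smul_comm τ (k : ZMod p), hd, Nat.cast_succ,
      add_smul, one_smul]
    abel

/-- If `τ₀ ∈ ker χ` acts nontrivially on `V`, then `τ₀ ^ p` acts trivially and every element of
`ker χ` acts like a power of `τ₀`. -/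
theorem ExtData.cyclic_structure (h : ExtData χ C) (τ₀ : G) (hτ₀ : χ τ₀ = 1)
    (hne : ∃ v : V, τ₀ • v ≠ v) :
    (∀ w : V, (τ₀ ^ p) • w = w) ∧
      ∀ τ : G, χ τ = 1 → ∃ j : ℕ, ∀ w : V, τ • w = (τ₀ ^ j) • w := by
  obtain ⟨v₀, hv₀⟩ := hne
  refine ⟨fun w => ?_, fun τ hτ => ?_⟩
  · rw [linAlgB_pow_smul h τ₀ hτ₀ w p, ZMod.natCast_self, zero_smul, add_zero]
  · have hp : p ≠ 0 := (Fact.out : p.Prime).ne_zero
    have : Finite C := Nat.finite_of_card_ne_zero (by rw [h.card_sub]; exact hp)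
    have : Finite V := Nat.finite_of_card_ne_zero (by rw [h.card_total]; exact pow_ne_zero 2 hp)
    have heC : τ₀ • v₀ - v₀ ∈ C := linAlgB_sub_mem h τ₀ hτ₀ v₀
    have he0 : τ₀ • v₀ - v₀ ≠ 0 := fun h0 => hv₀ (sub_eq_zero.mp h0)
    have hv₀C : v₀ ∉ C := fun hmem => hv₀ (h.fixed_sub τ₀ v₀ hmem)
    -- `C` is spanned by `e := τ₀ • v₀ - v₀`
    have hC : ∀ c ∈ C, ∃ a : ZMod p, c = a • (τ₀ • v₀ - v₀) := by
      let f : ZMod p → C := fun a => ⟨a • (τ₀ • v₀ - v₀), C.smul_mem a heC⟩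
      have hf : Function.Injective f := by
        intro a b hab
        have hab' : a • (τ₀ • v₀ - v₀) = b • (τ₀ • v₀ - v₀) := congrArg Subtype.val hab
        have h0 : (a - b) • (τ₀ • v₀ - v₀) = 0 := by rw [sub_smul, hab', sub_self]
        rcases smul_eq_zero.mp h0 with h1 | h1
        · exact sub_eq_zero.mp h1
        · exact absurd h1 he0
      have hbij := hf.bijective_of_nat_card_le (by rw [h.card_sub, Nat.card_zmod])
      intro c hc
      obtain ⟨a, ha⟩ := hbij.2 ⟨c, hc⟩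
      exact ⟨a, (congrArg Subtype.val ha).symm⟩
    -- `V = C + span v₀`
    have hV : ∀ w : V, ∃ c ∈ C, ∃ a : ZMod p, w = c + a • v₀ := by
      let g : C × ZMod p → V := fun x => (x.1 : V) + x.2 • v₀
      have hg : Function.Injective g := by
        rintro ⟨c, a⟩ ⟨c', a'⟩ hcc
        have hcc' : (c : V) + a • v₀ = (c' : V) + a' • v₀ := hcc
        have h1 : (a - a') • v₀ = (c' : V) - c := by
          rw [sub_smul, sub_eq_sub_iff_add_eq_add, add_comm, hcc', add_comm]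
        have ha : a = a' := by
          by_contra hne
          have hne' : a - a' ≠ 0 := sub_ne_zero.mpr hne
          apply hv₀C
          have h2 : v₀ = (a - a')⁻¹ • ((c' : V) - c) := by
            rw [← h1, smul_smul, inv_mul_cancel₀ hne', one_smul]
          rw [h2]
          exact C.smul_mem _ (C.sub_mem c'.2 c.2)
        subst ha
        have h3 : (c : V) = c' := add_right_cancel hcc'
        exact Prod.ext (Subtype.ext h3) rfl
      have hbij := hg.bijective_of_nat_card_le (by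
        rw [Nat.card_prod, h.card_sub, Nat.card_zmod, h.card_total, sq])
      intro w
      obtain ⟨⟨c, a⟩, hca⟩ := hbij.2 w
      exact ⟨c, c.2, a, hca.symm⟩
    -- the main computation
    obtain ⟨j, hj⟩ := hC _ (linAlgB_sub_mem h τ hτ v₀)
    refine ⟨j.val, fun w => ?_⟩
    obtain ⟨c, hc, a, rfl⟩ := hV w
    have h1 : τ • v₀ = v₀ + j • (τ₀ • v₀ - v₀) := by rw [← hj]; abel
    rw [linAlgB_pow_smul h τ₀ hτ₀, ZMod.natCast_zmod_val, smul_add, smul_add,
      h.fixed_sub τ c hc, h.fixed_sub τ₀ c hc, smul_comm τ a v₀, smul_comm τ₀ a v₀, h1]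
    generalize τ₀ • v₀ = x
    module

/-- Conjugation by `σ` acts on the image of `ker χ` through `χ(σ)⁻¹`:
`σ τ^k σ⁻¹` acts like `τ` as soon as `k ≡ χ(σ)`. -/
theorem ExtData.twist_rel (h : ExtData χ C) (σ τ : G) (hτ : χ τ = 1) (k : ℕ)
    (hk : (k : ZMod p) = ((χ σ : (ZMod p)ˣ) : ZMod p)) :
    ∀ w : V, (σ * τ ^ k * σ⁻¹) • w = τ • w := by
  intro w
  have hdC : τ • w - w ∈ C := linAlgB_sub_mem h τ hτ w
  have hcC : σ⁻¹ • w - ((χ σ⁻¹ : (ZMod p)ˣ) : ZMod p) • w ∈ C := h.quot σ⁻¹ w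
  have h1 : τ • (σ⁻¹ • w) - σ⁻¹ • w = ((χ σ⁻¹ : (ZMod p)ˣ) : ZMod p) • (τ • w - w) := by
    have h3 := h.fixed_sub τ _ hcC
    rw [smul_sub, smul_comm τ ((χ σ⁻¹ : (ZMod p)ˣ) : ZMod p) w] at h3
    rw [smul_sub]
    rw [sub_eq_sub_iff_add_eq_add] at h3 ⊢
    rw [h3, add_comm]
  have h2 : (k : ZMod p) * ((χ σ⁻¹ : (ZMod p)ˣ) : ZMod p) = 1 := by
    rw [hk, map_inv, Units.mul_inv]
  rw [mul_smul, mul_smul, linAlgB_pow_smul h τ hτ, h1, smul_smul, h2, one_smul, smul_add,
    smul_inv_smul, h.fixed_sub σ _ hdC]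
  abel

end Fermat.Agent.S14.Bridge
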