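import Fermat.Agent.S14.Bridge.ModelRam

/-!
# S14 / Bridge / ModelSplit: decomposition groups above `p` of the abstract model `L/K` are
trivial.
-/

set_option autoImplicit false

namespace Fermat.Agent.S14.Bridge

open NumberField

local notation "Ω" => AlgebraicClosure ℚ
local notation "Γ" => (AlgebraicClosure ℚ ≃ₐ[ℚ] AlgebraicClosure ℚ)

variable {p : ℕ} [Fact p.Prime]
  {K L : Type} [Field K] [NumberField K] [Field L] [NumberField L] [Algebra K L]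
  [IsGalois ℚ L] [IsGalois K L]
  {φ : L →+* Ω} {ζ₀ : Ω} {L₀ : IntermediateField ℚ Ω}

/-- Decomposition groups of `L/K` at primes above `p` are trivial. -/
theorem IsModel.split (hM : IsModel K L φ ζ₀ L₀) (hCT : ConcreteTwisted p ζ₀ L₀) :
    ∀ (Q : Ideal (𝓞 L)), Q.IsPrime → (p : 𝓞 L) ∈ Q →
      ∀ τ : L ≃ₐ[K] L, (∀ x ∈ Q, ∃ y ∈ Q, τ (x : L) = (y : L)) → τ = 1 := by
  intro Q hQ hpQ τ hτQ
  have hp : p.Prime := Fact.out
  -- Step 1: all powers of `τ` map `Q` into `Q`.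
  have hpow : ∀ n : ℕ, ∀ x ∈ Q, ∃ y ∈ Q, (τ ^ n) (x : L) = (y : L) := by
    intro n
    induction n with
    | zero =>
      intro x hx
      exact ⟨x, hx, by simp⟩
    | succ n ih =>
      intro x hx
      obtain ⟨y, hy, hxy⟩ := hτQ x hx
      obtain ⟨z, hz, hyz⟩ := ih y hy
      refine ⟨z, hz, ?_⟩
      rw [pow_succ, AlgEquiv.mul_apply, hxy, hyz]
  -- hence `τ x ∈ Q ↔ x ∈ Q`.
  have hiff : ∀ x y : 𝓞 L, τ (x : L) = (y : L) → (y ∈ Q ↔ x ∈ Q) := by
    intro x y hxy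
    constructor
    · intro hy
      have hn : 0 < orderOf τ := orderOf_pos τ
      obtain ⟨z, hz, hyz⟩ := hpow (orderOf τ - 1) y hy
      have h1 : (z : L) = (x : L) := by
        rw [← hyz, ← hxy, ← AlgEquiv.mul_apply, ← pow_succ, Nat.sub_add_cancel hn,
          pow_orderOf_eq_one]
        rfl
      have h2 : z = x := RingOfIntegers.ext h1
      rwa [← h2]
    · intro hx
      obtain ⟨z, hz, hxz⟩ := hτQ x hx
      have h2 : z = y := RingOfIntegers.ext (by rw [← hxz, hxy])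
      rwa [← h2]
  -- Step 2: the valuation subring and the lift of `τ`.
  obtain ⟨A, hA, hAQ⟩ := exists_valuationSubring_over L φ Q hQ p hp hpQ
  obtain ⟨τ', hτ'ζ, hτ'⟩ := hM.exists_lift τ
  have : Normal ℚ L₀ := hCT.normal
  have : FiniteDimensional ℚ L₀ := hCT.finite
  -- Step 3: correct `τ'` by an element fixing `L₀` to land in the decomposition group.
  obtain ⟨ρ, hρ, hρτ⟩ := exists_mul_mem_decomposition L₀ p hp A hA τ' (by
    intro y hy hyint
    obtain ⟨x, rfl⟩ := (hM.range y).mp hy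
    have hx : IsIntegral ℤ x :=
      (isIntegral_algHom_iff φ.toIntAlgHom φ.injective).mp hyint
    have hτx : IsIntegral ℤ (τ x) := map_isIntegral_int τ hx
    rw [hτ' x]
    have h1 : φ x ∈ A.nonunits ↔ (⟨x, hx⟩ : 𝓞 L) ∈ Q := hAQ ⟨x, hx⟩
    have h2 : φ (τ x) ∈ A.nonunits ↔ (⟨τ x, hτx⟩ : 𝓞 L) ∈ Q := hAQ ⟨τ x, hτx⟩
    rw [h1, h2]
    exact hiff ⟨x, hx⟩ ⟨τ x, hτx⟩ rfl)
  -- Step 4: `ρ * τ'` fixes `ζ₀`, hence `L₀` pointwise.
  have hfix : ∀ y ∈ L₀, (ρ * τ') y = y := by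
    apply hCT.split A hA (ρ * τ') hρτ
    rw [AlgEquiv.mul_apply, hτ'ζ]
    exact (IntermediateField.mem_fixingSubgroup_iff L₀ ρ).mp hρ ζ₀ hCT.mem
  exact hM.eq_one_of_fixes τ τ' ρ hτ' hρ hfix

end Fermat.Agent.S14.Bridge
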