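import Fermat.Agent.S14.Bridge.ModelDeg
import Fermat.Agent.S14.Bridge.ModelSplit

/-!
# S14 / Bridge / Transfer: a `ConcreteTwisted` datum inside `ℚ̄` contradicts the arithmetic core.
-/

set_option autoImplicit false

namespace Fermat.Agent.S14.Bridge

open NumberField

local notation "Ω" => AlgebraicClosure ℚ
local notation "Γ" => (AlgebraicClosure ℚ ≃ₐ[ℚ] AlgebraicClosure ℚ)

variable {p : ℕ} [Fact p.Prime]

attribute [local instance] Fermat.Agent.S54.isAlgebraic_qbar

/-- An abstract model of a concrete twisted datum is a twisted extension. -/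
theorem IsModel.twistedExt {K L : Type} [Field K] [NumberField K] [Field L] [NumberField L]
    [Algebra K L] [IsGalois ℚ L] [IsGalois K L] {φ : L →+* Ω} {ζ₀ : Ω}
    {L₀ : IntermediateField ℚ Ω} (hM : IsModel K L φ ζ₀ L₀) (hCT : ConcreteTwisted p ζ₀ L₀) :
    TwistedExt p K L :=
  ⟨hM.finrank_eq hCT, hM.twist hCT, hM.unramified hCT, hM.split hCT⟩

/-- A concrete twisted datum contradicts the arithmetic core. -/
theorem not_concreteTwisted (hAC : ArithmeticCore p) (ζ₀ : Ω) (L₀ : IntermediateField ℚ Ω) :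
    ¬ ConcreteTwisted p ζ₀ L₀ := by
  intro hCT
  have hpp : p.Prime := Fact.out
  have : NeZero p := ⟨hpp.ne_zero⟩
  have hζint : IsIntegral ℚ ζ₀ := Algebra.IsIntegral.isIntegral ζ₀
  have hKL : IntermediateField.adjoin ℚ {ζ₀} ≤ L₀ := by
    rw [IntermediateField.adjoin_simple_le_iff]
    exact hCT.mem
  have : FiniteDimensional ℚ L₀ := hCT.finite
  have : Normal ℚ L₀ := hCT.normal
  -- the fields
  let K₀ : IntermediateField ℚ Ω := IntermediateField.adjoin ℚ {ζ₀}
  let L₁ : IntermediateField K₀ Ω := IntermediateField.extendScalars hKL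
  have : FiniteDimensional ℚ K₀ := IntermediateField.adjoin.finiteDimensional hζint
  have : NumberField K₀ := @NumberField.mk _ _ _ (IntermediateField.adjoin.finiteDimensional hζint)
  have hfdL : FiniteDimensional ℚ L₁ := hCT.finite
  have : NumberField L₁ := @NumberField.mk _ _ _ hfdL
  have : IsCyclotomicExtension {p} ℚ K₀ :=
    hCT.prim.intermediateField_adjoin_isCyclotomicExtension ℚ
  have : IsGalois ℚ L₁ := by
    have : IsGalois ℚ L₀ := ⟨⟩
    exact this
  have : IsGalois K₀ L₁ := IsGalois.tower_top_of_isGalois ℚ K₀ L₁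
  refine hAC K₀ L₁ (IsModel.twistedExt (φ := (algebraMap L₁ Ω)) (ζ₀ := ζ₀) (L₀ := L₀) ?_ hCT)
  refine ⟨?_, ?_, ?_⟩
  · intro y
    constructor
    · intro hy
      exact ⟨⟨y, hy⟩, rfl⟩
    · rintro ⟨x, rfl⟩
      exact x.2
  · intro z
    exact z.2
  · exact ⟨⟨ζ₀, IntermediateField.mem_adjoin_simple_self ℚ ζ₀⟩, rfl⟩

end Fermat.Agent.S14.Bridge
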