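import Fermat.Agent.S14.Bridge.Production
import Fermat.Agent.S14.Bridge.Transfer

/-!
# S14 / Bridge / Main: reduction of `ExtCitation.ExtVanishingCts p` to the arithmetic core.
-/

set_option autoImplicit false

namespace Fermat.Agent.S14.Bridge

open ExtCitation

/-- **Bridge.**  The arithmetic core implies the vanishing of the admissible extensions. -/
theorem bridge {p : ℕ} [Fact p.Prime] (h3 : 3 ≤ p) (hAC : ArithmeticCore p) :
    ExtCitation.ExtVanishingCts p := by
  intro V _ _ _ _ C hadm
  rcases splits_or_concreteTwisted h3 V C hadm with h | ⟨ζ₀, L₀, hCT⟩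
  · exact h
  · exact absurd hCT (not_concreteTwisted hAC ζ₀ L₀)

end Fermat.Agent.S14.Bridge
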