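import Fermat.Agent.S14.Bridge.ModelGalois

/-!
# S14 / Bridge / ModelDeg: the degree `[L : K] = p` and the twist relation for the abstract model.

Use `IsModel.exists_lift_rat`, `IsModel.exists_lift`, `IsModel.exists_restrict`
(file `ModelGalois.lean`) to pass between automorphisms of `L` and of `ℚ̄`.
-/

set_option autoImplicit false

namespace Fermat.Agent.S14.Bridge

local notation "Ω" => AlgebraicClosure ℚ
local notation "Γ" => (AlgebraicClosure ℚ ≃ₐ[ℚ] AlgebraicClosure ℚ)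

variable {p : ℕ} [Fact p.Prime]
  {K L : Type} [Field K] [NumberField K] [Field L] [NumberField L] [Algebra K L]
  [IsGalois ℚ L] [IsGalois K L]
  {φ : L →+* Ω} {ζ₀ : Ω} {L₀ : IntermediateField ℚ Ω}

/-- If `τ'` extends `τ` along `φ`, then `τ' ^ j` extends `τ ^ j` along `φ`. -/
private theorem pow_comm_aux {K L : Type} [Field K] [Field L] [Algebra K L]
    (φ : L →+* Ω) (τ : L ≃ₐ[K] L) (τ' : Γ)
    (h : ∀ x : L, φ (τ x) = τ' (φ x)) :
    ∀ (j : ℕ) (x : L), φ ((τ ^ j) x) = (τ' ^ j) (φ x) := by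
  intro j
  induction j with
  | zero =>
    intro x
    simp only [pow_zero, AlgEquiv.one_apply]
  | succ n ih =>
    intro x
    rw [pow_succ, pow_succ, AlgEquiv.mul_apply, AlgEquiv.mul_apply, ih, h]

/-- The degree of `L/K` is `p`: `Gal(L/K)` is generated by the restriction of `τ₀`, which has
order exactly `p`; use `IsGalois.card_aut_eq_finrank`. -/
theorem IsModel.finrank_eq (hM : IsModel K L φ ζ₀ L₀) (hCT : ConcreteTwisted p ζ₀ L₀) :
    Module.finrank K L = p := by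
  obtain ⟨τ₀, hτ₀ζ, ⟨y, hyL, hy⟩, hpow, hgen⟩ := hCT.gen
  obtain ⟨t₀, ht₀⟩ := hM.exists_restrict τ₀ hτ₀ζ
  have hφ : Function.Injective φ := φ.injective
  have hpowers := pow_comm_aux φ t₀ τ₀ ht₀
  have hne : t₀ ≠ 1 := by
    intro h1
    obtain ⟨x, rfl⟩ := (hM.range y).1 hyL
    apply hy
    rw [← ht₀, h1, AlgEquiv.one_apply]
  have hp1 : t₀ ^ p = 1 := by
    apply AlgEquiv.ext
    intro x
    apply hφ
    rw [hpowers, hpow _ ((hM.range _).2 ⟨x, rfl⟩), AlgEquiv.one_apply]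
  have hord : orderOf t₀ = p := orderOf_eq_prime hp1 hne
  have hall : ∀ t : L ≃ₐ[K] L, t ∈ Subgroup.zpowers t₀ := by
    intro t
    obtain ⟨t', ht'ζ, ht'⟩ := hM.exists_lift t
    obtain ⟨j, hj⟩ := hgen t' ht'ζ
    refine ⟨(j : ℤ), ?_⟩
    apply AlgEquiv.ext
    intro x
    apply hφ
    simp only [zpow_natCast]
    rw [hpowers, ← ht', hj _ ((hM.range _).2 ⟨x, rfl⟩)]
  have hcard : Nat.card (L ≃ₐ[K] L) = p := by
    rw [← hord]
    exact (orderOf_eq_card_of_forall_mem_zpowers hall).symm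
  have : FiniteDimensional K L := Module.Finite.of_restrictScalars_finite ℚ K L
  rw [← IsGalois.card_aut_eq_finrank K L, hcard]

/-- The twist relation. -/
theorem IsModel.twist (hM : IsModel K L φ ζ₀ L₀) (hCT : ConcreteTwisted p ζ₀ L₀) :
    ∀ (ζ : K), IsPrimitiveRoot ζ p → ∀ (σ : L ≃ₐ[ℚ] L) (k : ℕ),
      σ (algebraMap K L ζ) = algebraMap K L ζ ^ k →
      ∀ (τ : L ≃ₐ[K] L) (x : L), σ ((τ ^ k) (σ.symm x)) = τ x := by
  intro ζ hζ σ k hσ τ x
  have hφ : Function.Injective φ := φ.injective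
  obtain ⟨σ', hσ'⟩ := hM.exists_lift_rat σ
  obtain ⟨τ', hτ'ζ, hτ'⟩ := hM.exists_lift τ
  have hζ' : IsPrimitiveRoot (φ (algebraMap K L ζ)) p :=
    (hζ.map_of_injective (algebraMap K L).injective).map_of_injective hφ
  have : NeZero p := ⟨(Fact.out : p.Prime).ne_zero⟩
  obtain ⟨m, -, hm⟩ := hζ'.eq_pow_of_pow_eq_one hCT.prim.pow_eq_one
  have hσζ₀ : σ' ζ₀ = ζ₀ ^ k := by
    rw [← hm, map_pow, hσ', hσ, map_pow, ← pow_mul, ← pow_mul, mul_comm]
  have key := hCT.twist σ' τ' hτ'ζ k hσζ₀ (φ x) ((hM.range _).2 ⟨x, rfl⟩)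
  have h1 : σ'⁻¹ (φ x) = φ (σ.symm x) := by
    have h2 : σ' (φ (σ.symm x)) = φ x := by rw [hσ', AlgEquiv.apply_symm_apply]
    rw [← h2, ← AlgEquiv.mul_apply, inv_mul_cancel, AlgEquiv.one_apply]
  have hpowers := pow_comm_aux φ τ τ' (fun y => (hτ' y).symm)
  apply hφ
  rw [← hσ', hpowers, ← h1, key, hτ']

end Fermat.Agent.S14.Bridge
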