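import Fermat.Agent.S14.Bridge.Defs

/-!
# S14 / Bridge / ModelGalois: passing between automorphisms of the abstract model `L` and
automorphisms of `ℚ̄`.

Hint: give `ℚ̄` the `L`-algebra structure `φ.toAlgebra` (local instance); then
`AlgEquiv.liftNormal` / `AlgEquiv.liftNormal_commutes` and `AlgEquiv.restrictNormal` /
`AlgEquiv.restrictNormal_commutes` do the work.
-/

set_option autoImplicit false

namespace Fermat.Agent.S14.Bridge

local notation "Ω" => AlgebraicClosure ℚ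
local notation "Γ" => (AlgebraicClosure ℚ ≃ₐ[ℚ] AlgebraicClosure ℚ)

/-- `ℚ̄` is a normal extension of `ℚ`. -/
private theorem normal_qbar_aux : Normal ℚ Ω :=
  have : Algebra.IsAlgebraic ℚ Ω := AlgebraicClosure.isAlgebraic ℚ
  have : IsAlgClosure ℚ Ω := ⟨inferInstance, inferInstance⟩
  IsAlgClosure.normal ℚ Ω

/-- An automorphism of `ℚ̄` fixing `ζ₀` fixes every element of `ℚ(ζ₀)`. -/
private theorem fix_adjoin_aux {ζ₀ : Ω} (τ' : Γ) (hτ' : τ' ζ₀ = ζ₀) (y : Ω)
    (hy : y ∈ IntermediateField.adjoin ℚ {ζ₀}) : τ' y = y := by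
  induction hy using IntermediateField.adjoin_induction with
  | mem x hx =>
    rw [Set.mem_singleton_iff] at hx
    rw [hx, hτ']
  | algebraMap x => exact τ'.commutes x
  | add x y _ _ hx hy => rw [map_add, hx, hy]
  | inv x _ hx => rw [map_inv₀, hx]
  | mul x y _ _ hx hy => rw [map_mul, hx, hy]

/-- Lifting along an arbitrary embedding `φ : L →+* ℚ̄` of a field `L` of characteristic zero:
every automorphism of `L` over `ℚ` extends to `ℚ̄`. -/
private theorem lift_rat_aux {L : Type} [Field L] [CharZero L] (φ : L →+* Ω) (σ : L ≃ₐ[ℚ] L) :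
    ∃ σ' : Γ, ∀ x : L, σ' (φ x) = φ (σ x) := by
  let _ : Algebra L Ω := φ.toAlgebra
  have : IsScalarTower ℚ L Ω := inferInstance
  have : Normal ℚ Ω := normal_qbar_aux
  exact ⟨σ.liftNormal Ω, fun x => σ.liftNormal_commutes Ω x⟩

/-- Restricting along an arbitrary embedding `φ : L →+* ℚ̄` of a field `L` normal over `ℚ`:
every automorphism of `ℚ̄` restricts to an automorphism of `L` over `ℚ`. -/
private theorem restrict_rat_aux {L : Type} [Field L] [CharZero L] [Normal ℚ L] (φ : L →+* Ω)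
    (τ' : Γ) : ∃ t : L ≃ₐ[ℚ] L, ∀ x : L, φ (t x) = τ' (φ x) := by
  let _ : Algebra L Ω := φ.toAlgebra
  have : IsScalarTower ℚ L Ω := inferInstance
  exact ⟨τ'.restrictNormal L, fun x => τ'.restrictNormal_commutes L x⟩

variable {p : ℕ} [Fact p.Prime]
  {K L : Type} [Field K] [NumberField K] [Field L] [NumberField L] [Algebra K L]
  [IsGalois ℚ L] [IsGalois K L]
  {φ : L →+* Ω} {ζ₀ : Ω} {L₀ : IntermediateField ℚ Ω}

set_option linter.unusedSectionVars false in
/-- Every automorphism of `L` over `ℚ` extends to `ℚ̄`. -/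
theorem IsModel.exists_lift_rat (hM : IsModel K L φ ζ₀ L₀) (σ : L ≃ₐ[ℚ] L) :
    ∃ σ' : Γ, ∀ x : L, σ' (φ x) = φ (σ x) :=
  have _ := hM
  lift_rat_aux φ σ

/-- Every automorphism of `L` over `K` extends to an automorphism of `ℚ̄` fixing `ζ₀`. -/
theorem IsModel.exists_lift (hM : IsModel K L φ ζ₀ L₀) (τ : L ≃ₐ[K] L) :
    ∃ τ' : Γ, τ' ζ₀ = ζ₀ ∧ ∀ x : L, τ' (φ x) = φ (τ x) := by
  obtain ⟨τ', hτ'⟩ := hM.exists_lift_rat (τ.restrictScalars ℚ)
  obtain ⟨z, hz⟩ := hM.base_mem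
  refine ⟨τ', ?_, fun x => by rw [hτ' x, AlgEquiv.restrictScalars_apply]⟩
  rw [← hz, hτ' (algebraMap K L z), AlgEquiv.restrictScalars_apply, AlgEquiv.commutes]

set_option linter.unusedSectionVars false in
/-- Every automorphism of `ℚ̄` fixing `ζ₀` restricts to an automorphism of `L` over `K`. -/
theorem IsModel.exists_restrict (hM : IsModel K L φ ζ₀ L₀) (τ' : Γ) (hτ' : τ' ζ₀ = ζ₀) :
    ∃ τ : L ≃ₐ[K] L, ∀ x : L, φ (τ x) = τ' (φ x) := by
  obtain ⟨t, ht⟩ := restrict_rat_aux φ τ'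
  have hK : ∀ z : K, t.toRingEquiv (algebraMap K L z) = algebraMap K L z := by
    intro z
    apply φ.injective
    exact (ht _).trans (fix_adjoin_aux τ' hτ' _ (hM.base_le z))
  exact ⟨AlgEquiv.ofRingEquiv (f := t.toRingEquiv) hK, ht⟩

end Fermat.Agent.S14.Bridge
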