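import Fermat.Agent.S14.Bridge.Defs
import Fermat.Agent.S54_Frob

/-!
# S14 / Bridge / Primes: valuation subrings of `ℚ̄` above a prime of a number field.
-/

set_option autoImplicit false

namespace Fermat.Agent.S14.Bridge

open NumberField

local notation "Ω" => AlgebraicClosure ℚ

/-- If a prime ideal contains a nonzero natural number, it contains a prime number. -/
private theorem exists_prime_of_natCast_mem {R : Type*} [CommRing R] (Q : Ideal R)
    (hQ : Q.IsPrime) : ∀ n : ℕ, n ≠ 0 → (n : R) ∈ Q → ∃ ℓ : ℕ, ℓ.Prime ∧ (ℓ : R) ∈ Q := by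
  intro n
  induction n using Nat.strong_induction_on with
  | _ n ih =>
    intro hn0 hn
    by_cases h1 : n = 1
    · subst h1
      exfalso
      apply hQ.ne_top
      rw [Ideal.eq_top_iff_one]
      simpa using hn
    · obtain ⟨ℓ, hℓ, m, rfl⟩ := Nat.exists_prime_and_dvd h1
      rw [Nat.cast_mul] at hn
      rcases hQ.mem_or_mem hn with h | h
      · exact ⟨ℓ, hℓ, h⟩
      · have hm0 : m ≠ 0 := by
          rintro rfl
          exact hn0 (mul_zero _)
        have hlt : m < ℓ * m := by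
          have h2 := hℓ.two_le
          have hmpos : 0 < m := Nat.pos_of_ne_zero hm0
          nlinarith
        exact ih m hlt hm0 h

/-- A nonzero prime of the ring of integers of a number field contains a prime number. -/
theorem exists_prime_mem (L : Type) [Field L] [NumberField L] (Q : Ideal (𝓞 L)) (hQ : Q.IsPrime)
    (hQ0 : Q ≠ ⊥) : ∃ ℓ : ℕ, ℓ.Prime ∧ (ℓ : 𝓞 L) ∈ Q := by
  have hN : Ideal.absNorm Q ≠ 0 := fun h => hQ0 (Ideal.absNorm_eq_zero_iff.mp h)
  exact exists_prime_of_natCast_mem Q hQ (Ideal.absNorm Q) hN (Ideal.absNorm_mem Q)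

/-- Given an embedding `φ` of a number field `L` into `ℚ̄` and a prime `Q` of `𝓞 L` containing the
prime number `ℓ`, there is a valuation subring of `ℚ̄` lying over `ℓ` whose non-units cut out
exactly `Q` on `𝓞 L`.  (Use `Ideal.image_subset_nonunits_valuationSubring` for the subring
`φ (𝓞 L)` of `ℚ̄` and the image of `Q`; `Q` is maximal.) -/
theorem exists_valuationSubring_over (L : Type) [Field L] [NumberField L] (φ : L →+* Ω)
    (Q : Ideal (𝓞 L)) (hQ : Q.IsPrime) (ℓ : ℕ) (hℓ : ℓ.Prime) (hℓQ : (ℓ : 𝓞 L) ∈ Q) :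
    ∃ A : ValuationSubring Ω, A.LiesOverPrime ℓ ∧
      ∀ x : 𝓞 L, φ (x : L) ∈ A.nonunits ↔ x ∈ Q := by
  -- the embedding of `𝓞 L` into `Ω`
  let f : 𝓞 L →+* Ω := φ.comp (algebraMap (𝓞 L) L)
  have hfinj : Function.Injective f :=
    φ.injective.comp (FaithfulSMul.algebraMap_injective (𝓞 L) L)
  -- the image of `Q` in the subring `f (𝓞 L)` of `Ω`
  let I : Ideal f.range := Q.map f.rangeRestrict
  have hmemI : ∀ y : f.range, y ∈ I ↔ ∃ x ∈ Q, f.rangeRestrict x = y := fun y =>
    Ideal.mem_map_iff_of_surjective f.rangeRestrict f.rangeRestrict_surjective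
  have hI : I ≠ ⊤ := by
    intro htop
    have h1 : (1 : f.range) ∈ I := by rw [htop]; trivial
    obtain ⟨x, hxQ, hx⟩ := (hmemI 1).mp h1
    have hx1 : f x = f 1 := by
      have := congrArg Subtype.val hx
      rw [map_one]
      exact this
    have : x = 1 := hfinj hx1
    rw [this] at hxQ
    exact hQ.ne_top ((Ideal.eq_top_iff_one Q).mpr hxQ)
  obtain ⟨A, hRA, hIA⟩ := Ideal.image_subset_nonunits_valuationSubring I hI
  -- elements of `Q` are mapped to non-units of `A`
  have hQA : ∀ x ∈ Q, φ (x : L) ∈ A.nonunits := by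
    intro x hx
    exact hIA ⟨f.rangeRestrict x, (hmemI _).mpr ⟨x, hx, rfl⟩, rfl⟩
  -- integers are mapped into `A`
  have hRA' : ∀ x : 𝓞 L, φ (x : L) ∈ A := fun x => hRA ⟨x, rfl⟩
  -- `Q` is a maximal ideal
  have hQ0 : Q ≠ ⊥ := by
    intro hbot
    rw [hbot, Ideal.mem_bot] at hℓQ
    exact hℓ.ne_zero (Nat.cast_injective (R := 𝓞 L) (by rw [hℓQ, Nat.cast_zero]))
  have hQmax : Q.IsMaximal := hQ.isMaximal hQ0
  refine ⟨A, ?_, fun x => ⟨fun hx => ?_, hQA x⟩⟩
  · show (ℓ : Ω) ∈ A.nonunits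
    have h := hQA _ hℓQ
    have h2 : φ (((ℓ : ℕ) : 𝓞 L) : L) = (ℓ : Ω) := by
      show φ (algebraMap (𝓞 L) L ((ℓ : ℕ) : 𝓞 L)) = (ℓ : Ω)
      rw [map_natCast, map_natCast]
    rwa [h2] at h
  · by_contra hxQ
    obtain ⟨a, q, hq, haq⟩ := hQmax.exists_inv hxQ
    -- `haq : a * x + q = 1`
    have h1 : φ (q : L) ∈ A.nonunits := hQA _ hq
    have h2 : φ (a : L) * φ (x : L) ∈ A.nonunits :=
      Fermat.Agent.S54.mul_mem_nonunits A (hRA' a) hx
    have h3 : φ (a : L) * φ (x : L) + φ (q : L) = 1 := by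
      have h5 : f (a * x + q) = f 1 := congrArg f haq
      rw [map_add, map_mul, map_one] at h5
      exact h5
    have h4 : (1 : Ω) ∈ A.nonunits := by
      rw [← h3]
      exact add_mem h2 h1
    exact Fermat.Agent.S54.one_not_mem_nonunits A h4

/-- An automorphism of a number field fixing the ring of integers pointwise is trivial. -/
theorem algEquiv_eq_one_of_forall_integer {K L : Type} [Field K] [Field L] [NumberField L]
    [Algebra K L] (τ : L ≃ₐ[K] L) (h : ∀ x : 𝓞 L, τ (x : L) = x) : τ = 1 := by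
  apply AlgEquiv.ext
  intro x
  obtain ⟨a, b, -, rfl⟩ := IsFractionRing.div_surjective (𝓞 L) x
  rw [map_div₀]
  show τ (a : L) / τ (b : L) = (a : L) / (b : L)
  rw [h a, h b]

end Fermat.Agent.S14.Bridge
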