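import Fermat.Agent.S14.Bridge.ModelGalois
import Fermat.Agent.S14.Bridge.Lift
import Fermat.Agent.S14.Bridge.Primes

/-!
# S14 / Bridge / ModelRam: inertia groups away from `p` of the abstract model `L/K` are trivial.
-/

set_option autoImplicit false

namespace Fermat.Agent.S14.Bridge

open NumberField

local notation "Ω" => AlgebraicClosure ℚ
local notation "Γ" => (AlgebraicClosure ℚ ≃ₐ[ℚ] AlgebraicClosure ℚ)

variable {p : ℕ} [Fact p.Prime]
  {K L : Type} [Field K] [NumberField K] [Field L] [NumberField L] [Algebra K L]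
  [IsGalois ℚ L] [IsGalois K L]
  {φ : L →+* Ω} {ζ₀ : Ω} {L₀ : IntermediateField ℚ Ω}

/-- If `τ'` (an automorphism of `ℚ̄`) agrees on `L₀` with an automorphism fixing `L₀` pointwise,
then the automorphism `τ` of `L` which it induces is trivial. -/
theorem IsModel.eq_one_of_fixes (hM : IsModel K L φ ζ₀ L₀) (τ : L ≃ₐ[K] L) (τ' ρ : Γ)
    (hτ : ∀ x : L, τ' (φ x) = φ (τ x)) (hρ : ρ ∈ L₀.fixingSubgroup)
    (hfix : ∀ y ∈ L₀, (ρ * τ') y = y) : τ = 1 := by
  apply AlgEquiv.ext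
  intro x
  rw [AlgEquiv.one_apply]
  apply φ.injective
  have hx : φ x ∈ L₀ := (hM.range _).mpr ⟨x, rfl⟩
  have hτx : φ (τ x) ∈ L₀ := (hM.range _).mpr ⟨τ x, rfl⟩
  have h1 : (ρ * τ') (φ x) = φ x := hfix (φ x) hx
  rw [AlgEquiv.mul_apply, hτ] at h1
  have h2 : ρ (φ (τ x)) = φ (τ x) :=
    (IntermediateField.mem_fixingSubgroup_iff L₀ ρ).mp hρ _ hτx
  rw [h2] at h1
  exact h1

/-- Integrality over `ℤ` descends along the (injective) ring homomorphism `φ`. -/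
private theorem isIntegral_of_map {L : Type} [Field L] (φ : L →+* Ω) {x : L}
    (h : IsIntegral ℤ (φ x)) : IsIntegral ℤ x :=
  (isIntegral_algHom_iff φ.toIntAlgHom φ.injective).mp h

/-- Inertia groups of `L/K` at primes not above `p` are trivial. -/
theorem IsModel.unramified (hM : IsModel K L φ ζ₀ L₀) (hCT : ConcreteTwisted p ζ₀ L₀) :
    ∀ (Q : Ideal (𝓞 L)), Q.IsPrime → (p : 𝓞 L) ∉ Q →
      ∀ τ : L ≃ₐ[K] L, (∀ x : 𝓞 L, ∃ y ∈ Q, τ (x : L) - x = (y : L)) → τ = 1 := by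
  intro Q hQ hpQ τ hτ
  by_cases hQ0 : Q = ⊥
  · -- the zero ideal: `τ` fixes all integers
    apply algEquiv_eq_one_of_forall_integer
    intro x
    obtain ⟨y, hy, hxy⟩ := hτ x
    rw [hQ0, Ideal.mem_bot] at hy
    have h0 : ((0 : 𝓞 L) : L) = 0 := map_zero _
    rw [hy, h0] at hxy
    exact sub_eq_zero.mp hxy
  · -- a nonzero prime: it lies over a prime number `ℓ ≠ p`
    obtain ⟨ℓ, hℓ, hℓQ⟩ := exists_prime_mem L Q hQ hQ0
    have hne : ℓ ≠ p := by
      rintro rfl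
      exact hpQ hℓQ
    obtain ⟨A, hA, hAQ⟩ := exists_valuationSubring_over L φ Q hQ ℓ hℓ hℓQ
    obtain ⟨τ', _, hτ'⟩ := hM.exists_lift τ
    have hnormal : Normal ℚ L₀ := hCT.normal
    have hfinite : FiniteDimensional ℚ L₀ := hCT.finite
    obtain ⟨ρ, hρ, hρτ⟩ := exists_mul_mem_inertia L₀ ℓ hℓ A hA τ' (by
      intro y hy hyint
      obtain ⟨x, rfl⟩ := (hM.range y).mp hy
      have hxint : IsIntegral ℤ x := isIntegral_of_map φ hyint
      obtain ⟨q, hq, hxq⟩ := hτ ⟨x, hxint⟩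
      have hxq' : τ x - x = (q : L) := hxq
      rw [hτ', ← map_sub, hxq']
      exact (hAQ q).mpr hq)
    exact hM.eq_one_of_fixes τ τ' ρ hτ' hρ (hCT.unram ℓ hℓ hne A hA (ρ * τ') hρτ)

end Fermat.Agent.S14.Bridge
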