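import Fermat.Agent.S14.Bridge.Cyclo
import Fermat.Agent.S14.Bridge.LinAlgA
import Fermat.Agent.S14.Bridge.LinAlgB
import Fermat.Agent.S14.Bridge.Galois

/-!
# S14 / Bridge / Production: an admissible extension either splits globally or produces a
`ConcreteTwisted` datum.
-/

set_option autoImplicit false

namespace Fermat.Agent.S14.Bridge

open ExtCitation

local notation "Ω" => AlgebraicClosure ℚ
local notation "Γ" => (AlgebraicClosure ℚ ≃ₐ[ℚ] AlgebraicClosure ℚ)

/-- The kernel of the action of `Gal(ℚ̄/ℚ)` on `V`. -/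
def actKer (V : Type) [AddCommGroup V] [DistribMulAction Γ V] : Subgroup Γ where
  carrier := {σ | ∀ v : V, σ • v = v}
  mul_mem' := fun {a b} ha hb v => by rw [mul_smul, hb v, ha v]
  one_mem' := fun v => one_smul _ v
  inv_mem' := fun {a} ha v => by
    have := ha v
    rw [inv_smul_eq_iff, this]

theorem mem_actKer {V : Type} [AddCommGroup V] [DistribMulAction Γ V] (σ : Γ) :
    σ ∈ actKer V ↔ ∀ v : V, σ • v = v := Iff.rfl

instance actKer_normal (V : Type) [AddCommGroup V] [DistribMulAction Γ V] :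
    (actKer V).Normal where
  conj_mem := fun n hn g v => by
    rw [mul_smul, mul_smul, hn (g⁻¹ • v), smul_inv_smul]

variable {p : ℕ} [Fact p.Prime]

/-- The abstract extension data of an admissible extension. -/
theorem extData_of_admissible (V : Type) [AddCommGroup V] [Module (ZMod p) V]
    [DistribMulAction Γ V] [SMulCommClass Γ (ZMod p) V] (C : Submodule (ZMod p) V)
    (hadm : IsAdmissibleExtension p V C) : ExtData (cycloChar p) C where
  fixed_sub := hadm.fixed_sub
  quot := fun σ x => by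
    rw [coe_cycloChar]
    exact hadm.cyclo_quot σ x
  card_sub := hadm.card_sub
  card_total := hadm.card_total

/-- An admissible extension either splits globally or produces a `ConcreteTwisted` datum. -/
theorem splits_or_concreteTwisted (h3 : 3 ≤ p) (V : Type) [AddCommGroup V] [Module (ZMod p) V]
    [DistribMulAction Γ V] [SMulCommClass Γ (ZMod p) V] (C : Submodule (ZMod p) V)
    (hadm : IsAdmissibleExtensionCts p V C) :
    SplitsGlobally C ∨ ∃ (ζ₀ : Ω) (L₀ : IntermediateField ℚ Ω), ConcreteTwisted p ζ₀ L₀ := by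
  have hE : ExtData (cycloChar p) C := extData_of_admissible V C hadm.toIsAdmissibleExtension
  by_cases hker : ∀ τ : Γ, cycloChar p τ = 1 → ∀ v : V, τ • v = v
  · left
    obtain ⟨σ₀, hσ₀⟩ := exists_cycloChar_ne_one p h3
    exact hE.split_of_trivial hker σ₀ hσ₀
  · right
    push Not at hker
    obtain ⟨τ₀, hτ₀, hτ₀v⟩ := hker
    obtain ⟨ζ₀, hζ₀⟩ := exists_primitiveRoot p
    have hopen : IsOpen ((actKer V : Subgroup Γ) : Set Γ) := hadm.open_kernel
    obtain ⟨hfd, hnorm, hfix⟩ := fixedField_of_open_normal (actKer V) hopen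
    -- the two directions of the Galois correspondence that we need
    have hA : ∀ σ : Γ, σ ∈ actKer V → ∀ x ∈ IntermediateField.fixedField (actKer V), σ x = x := by
      intro σ hσ x hx
      exact hx ⟨σ, hσ⟩
    have hchi : ∀ σ : Γ, σ ζ₀ = ζ₀ → cycloChar p σ = 1 := fun σ h =>
      (cycloChar_eq_one_iff p hζ₀ σ).mpr h
    have hcyc := hE.cyclic_structure τ₀ hτ₀ hτ₀v
    refine ⟨ζ₀, IntermediateField.fixedField (actKer V), hζ₀, ?_, hfd, hnorm, ?_, ?_, ?_, ?_⟩
    · -- ζ₀ ∈ L₀
      rintro ⟨σ, hσ⟩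
      exact (cycloChar_eq_one_iff p hζ₀ σ).mp (hE.chi_eq_one_of_trivial σ hσ)
    · -- gen
      refine ⟨τ₀, (cycloChar_eq_one_iff p hζ₀ τ₀).mp hτ₀, ?_, ?_, ?_⟩
      · by_contra hcon
        push Not at hcon
        obtain ⟨v, hv⟩ := hτ₀v
        exact hv (hfix τ₀ hcon v)
      · intro x hx
        exact hA _ hcyc.1 x hx
      · intro τ hτ
        obtain ⟨j, hj⟩ := hcyc.2 τ (hchi τ hτ)
        refine ⟨j, fun x hx => ?_⟩
        have hmem : (τ₀ ^ j)⁻¹ * τ ∈ actKer V := by
          intro w
          rw [mul_smul, hj w, inv_smul_smul]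
        have := hA _ hmem x hx
        rw [AlgEquiv.mul_apply] at this
        calc τ x = (τ₀ ^ j) ((τ₀ ^ j)⁻¹ (τ x)) := by simp
          _ = (τ₀ ^ j) x := by rw [this]
    · -- twist
      intro σ τ hτ k hk x hx
      have hk' := natCast_eq_cycloChar p hζ₀ σ k hk
      have hrel := hE.twist_rel σ τ (hchi τ hτ) k hk'
      have hmem : τ⁻¹ * (σ * τ ^ k * σ⁻¹) ∈ actKer V := by
        intro w
        rw [mul_smul, hrel w, inv_smul_smul]
      have := hA _ hmem x hx
      simp only [AlgEquiv.mul_apply] at this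
      calc σ ((τ ^ k) (σ⁻¹ x)) = τ (τ⁻¹ (σ ((τ ^ k) (σ⁻¹ x)))) := by simp
        _ = τ x := by rw [this]
    · -- unram
      intro ℓ hℓ hℓp A hAℓ σ hσ x hx
      exact hA σ (hadm.unramified_outside ℓ hℓ hℓp A hAℓ σ hσ) x hx
    · -- split
      intro A hAp σ hσ hσζ x hx
      obtain ⟨C', hst, hc⟩ := hadm.locally_split A hAp
      exact hA σ (hE.trivial_of_stable_compl σ (hchi σ hσζ) C' (hst σ hσ) hc) x hx

end Fermat.Agent.S14.Bridge
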